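/-
S55 / 32c-SECOND-INEQ-INST, local bridge (helper57): DENSITY of the image of a field `K` of
characteristic zero under a bare ring homomorphism `j : K →+* PadicAlgCl q` inside the local
field `ℚ_q(j K) = IntermediateField.adjoin ℚ_[q] (Set.range j)`
(= `SecondInst53.PlaceModel.PlaceData.locField`, `LocDegSum39.locField`).

Adapted from `ProfinLoc80.exists_norm_sub_lt` (helper80), which is the case
`j = padicEmbedding q ∘ (F ↪ ℚbar)`.
-/
import Mathlib

set_option autoImplicit false

namespace Fermat.Agent.S55.LocBridge57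

variable {q : ℕ} [Fact q.Prime] {K : Type*} [Field K] [CharZero K]

omit [CharZero K] in
/-- `ℚ_q(j K)` is the `ℚ_q`-span of `j K`. -/
theorem adjoin_range_toSubmodule (j : K →+* PadicAlgCl q) :
    Subalgebra.toSubmodule (IntermediateField.adjoin ℚ_[q] (Set.range j)).toSubalgebra =
      Submodule.span ℚ_[q] (Set.range j) := by
  rw [IntermediateField.adjoin_toSubalgebra, Algebra.adjoin_eq_span]
  congr 1
  have : Set.range j = ((MonoidHom.mrange (j : K →* PadicAlgCl q) : Submonoid (PadicAlgCl q)) :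
      Set (PadicAlgCl q)) := by
    ext y
    simp
  rw [this, Submonoid.closure_eq]

/-- **density**: every element of `ℚ_q(j K)` is a limit of elements of `j K`. -/
theorem exists_norm_sub_lt_of_mem_adjoin (j : K →+* PadicAlgCl q) {y : PadicAlgCl q}
    (hy : y ∈ IntermediateField.adjoin ℚ_[q] (Set.range j)) {ε : ℝ} (hε : 0 < ε) :
    ∃ x : K, ‖y - j x‖ < ε := by
  have hy' : y ∈ Submodule.span ℚ_[q] (Set.range j) := by
    rw [← adjoin_range_toSubmodule]; exact hy
  clear hy
  induction hy' using Submodule.span_induction generalizing ε with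
  | mem y hy =>
    obtain ⟨x, rfl⟩ := hy
    exact ⟨x, by simpa using hε⟩
  | zero => exact ⟨0, by simpa using hε⟩
  | add y z _ _ hy hz =>
    obtain ⟨x, hx⟩ := hy (half_pos hε)
    obtain ⟨x', hx'⟩ := hz (half_pos hε)
    refine ⟨x + x', ?_⟩
    have : y + z - j (x + x') = (y - j x) + (z - j x') := by
      rw [map_add]; ring
    rw [this]
    exact (norm_add_le _ _).trans_lt (by linarith)
  | smul c y _ hy =>
    have hc1 : 0 < ‖c‖ + 1 := by positivity
    obtain ⟨x, hx⟩ := hy (div_pos (half_pos hε) hc1)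
    have hx1 : 0 < ‖j x‖ + 1 := by positivity
    obtain ⟨a, ha⟩ := Metric.denseRange_iff.mp (Padic.denseRange_ratCast q) c
      (ε / 2 / (‖j x‖ + 1)) (div_pos (half_pos hε) hx1)
    refine ⟨(a : K) * x, ?_⟩
    have hax : j ((a : K) * x) = ((a : ℚ_[q])) • j x := by
      rw [map_mul, map_ratCast, Algebra.smul_def, map_ratCast]
    have : c • y - j ((a : K) * x) = c • (y - j x) + (c - (a : ℚ_[q])) • j x := by
      rw [hax, smul_sub, sub_smul]; abel
    rw [this]
    refine (norm_add_le _ _).trans_lt ?_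
    rw [norm_smul, norm_smul]
    have h1 : ‖c‖ * ‖y - j x‖ < ε / 2 := by
      calc ‖c‖ * ‖y - j x‖ ≤ (‖c‖ + 1) * ‖y - j x‖ := by
            apply mul_le_mul_of_nonneg_right _ (norm_nonneg _); linarith
        _ < (‖c‖ + 1) * (ε / 2 / (‖c‖ + 1)) := mul_lt_mul_of_pos_left hx hc1
        _ = ε / 2 := by field_simp
    have h2 : ‖c - (a : ℚ_[q])‖ * ‖j x‖ < ε / 2 := by
      rw [dist_eq_norm] at ha
      calc ‖c - (a : ℚ_[q])‖ * ‖j x‖ ≤ ‖c - (a : ℚ_[q])‖ * (‖j x‖ + 1) := by
            apply mul_le_mul_of_nonneg_left _ (norm_nonneg _); linarith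
        _ < (ε / 2 / (‖j x‖ + 1)) * (‖j x‖ + 1) := mul_lt_mul_of_pos_right ha hx1
        _ = ε / 2 := by field_simp
    linarith

end Fermat.Agent.S55.LocBridge57
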