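/-
S55 / 32c-SECOND-INEQ-INST, local bridge (helper57): principal units of a finite extension
`E` of `ℚ_[q]` inside `PadicAlgCl q` (model `LocField17.LF q`) are `p`-th powers as soon as they
are close enough to `1`:

* `exists_pow_eq_of_norm_sub_one_lt` : `‖u - 1‖ < ‖p‖²  →  ∃ z, z ^ p = u ∧ ‖z - 1‖ < 1`
  (any `q`, any `p ≠ 0`; for `q = p` this is `1 + p² 𝔪 ⊆ (Eˣ)ᵖ`);
* `norm_natCast_eq_one` : `‖(p : PadicAlgCl q)‖ = 1` for `q ∤ p`;
* `exists_pow_eq_of_one_unit` : tame case `q ∤ p`: every `1`-unit is a `p`-th power of a `1`-unit.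
-/
import Mathlib
import Fermat.Agent.S55.LocField17.Int
import Fermat.Agent.S55.LocPow39

set_option autoImplicit false

namespace Fermat.Agent.S55.LocBridge57

open Fermat.Agent.S55.LocField17

variable {q : ℕ} [Fact q.Prime]

/-- the norm of a natural number in `PadicAlgCl q` is its `q`-adic norm. -/
theorem norm_natCast_padicAlgCl (n : ℕ) : ‖(n : PadicAlgCl q)‖ = ‖(n : ℚ_[q])‖ := by
  have h : (n : PadicAlgCl q) = algebraMap ℚ_[q] (PadicAlgCl q) (n : ℚ_[q]) := by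
    rw [map_natCast]
  rw [h, norm_algebraMap']

theorem norm_natCast_padic_le_one (n : ℕ) : ‖(n : ℚ_[q])‖ ≤ 1 := by
  have := Padic.norm_int_le_one (p := q) (n : ℤ)
  simpa using this

/-- `‖(p : PadicAlgCl q)‖ = 1` if `q ∤ p`. -/
theorem norm_natCast_eq_one {p : ℕ} (hpq : ¬ q ∣ p) : ‖(p : PadicAlgCl q)‖ = 1 := by
  rw [norm_natCast_padicAlgCl]
  have h := Padic.norm_natCast_lt_one_iff (p := q) (n := p)
  have hle : ‖(p : ℚ_[q])‖ ≤ 1 := norm_natCast_padic_le_one p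
  rcases lt_or_eq_of_le hle with hlt | heq
  · exact absurd (h.mp hlt) hpq
  · exact heq

theorem norm_natCast_pos {p : ℕ} (hp0 : p ≠ 0) : 0 < ‖(p : PadicAlgCl q)‖ := by
  rw [norm_pos_iff]
  exact Nat.cast_ne_zero.mpr hp0

/-- **(T1')** an element `u` of `E` with `‖u - 1‖ < ‖p‖²` is a `p`-th power of a `1`-unit. -/
theorem exists_pow_eq_of_norm_sub_one_lt (E : LF q) [FiniteDimensional ℚ_[q] E] (p : ℕ)
    (hp0 : p ≠ 0) (u : E) (hu : ‖((u - 1 : E) : PadicAlgCl q)‖ < ‖(p : PadicAlgCl q)‖ ^ 2) :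
    ∃ z : E, z ^ p = u ∧ ‖((z - 1 : E) : PadicAlgCl q)‖ < 1 := by
  have hppos : 0 < ‖(p : PadicAlgCl q)‖ := norm_natCast_pos hp0
  have hpE : (p : E) ≠ 0 := Nat.cast_ne_zero.mpr hp0
  have hpE' : (((p : E) : PadicAlgCl q)) = (p : PadicAlgCl q) := by
    norm_cast
  -- `y := (u - 1) / p²` lies in the maximal ideal
  have hy : ‖((((u - 1) / (p : E) ^ 2 : E)) : PadicAlgCl q)‖ < 1 := by
    rw [IntermediateField.coe_div, IntermediateField.coe_pow, hpE', norm_div, norm_pow,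
      div_lt_one (pow_pos hppos 2)]
    exact hu
  set y : intRing E := ⟨(u - 1) / (p : E) ^ 2, mem_intRing.mpr hy.le⟩ with hydef
  have hym : y ∈ IsLocalRing.maximalIdeal (intRing E) := (mem_maximalIdeal_iff y).mpr hy
  obtain ⟨z, hzm, hz, -⟩ := LocPow39.exists_pow_eq p y hym
  refine ⟨((1 + (p : intRing E) * z : intRing E) : E), ?_, ?_⟩
  · have := congrArg (fun t : intRing E => (t : E)) hz
    beta_reduce at this
    rw [← SubmonoidClass.coe_pow, this]
    show (1 : E) + ((p : intRing E) : E) ^ 2 * ((u - 1) / (p : E) ^ 2) = u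
    have hcast : ((p : intRing E) : E) = (p : E) := by simp
    rw [hcast]
    field_simp
    ring
  · have hzn : ‖((z : E) : PadicAlgCl q)‖ < 1 := (mem_maximalIdeal_iff z).mp hzm
    have hcast : ((p : intRing E) : E) = (p : E) := by simp
    have : ((((1 + (p : intRing E) * z : intRing E) : E) - 1 : E) : PadicAlgCl q) =
        (p : PadicAlgCl q) * ((z : E) : PadicAlgCl q) := by
      show ((((1 : E) + ((p : intRing E) : E) * (z : E)) - 1 : E) : PadicAlgCl q) = _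
      rw [hcast]
      simp
    rw [this, norm_mul]
    have hp1 : ‖(p : PadicAlgCl q)‖ ≤ 1 := by
      rw [norm_natCast_padicAlgCl]; exact norm_natCast_padic_le_one p
    calc ‖(p : PadicAlgCl q)‖ * ‖((z : E) : PadicAlgCl q)‖
        ≤ 1 * ‖((z : E) : PadicAlgCl q)‖ := mul_le_mul_of_nonneg_right hp1 (norm_nonneg _)
      _ < 1 := by rw [one_mul]; exact hzn

/-- **(T1)** tame case: if `q ∤ p`, every `1`-unit of `E` is the `p`-th power of a `1`-unit. -/
theorem exists_pow_eq_of_one_unit (E : LF q) [FiniteDimensional ℚ_[q] E] (p : ℕ)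
    (hpq : ¬ q ∣ p) (u : E) (hu : ‖((u - 1 : E) : PadicAlgCl q)‖ < 1) :
    ∃ z : E, z ^ p = u ∧ ‖((z - 1 : E) : PadicAlgCl q)‖ < 1 := by
  have hp0 : p ≠ 0 := by
    rintro rfl
    exact hpq (dvd_zero q)
  apply exists_pow_eq_of_norm_sub_one_lt E p hp0 u
  rw [norm_natCast_eq_one hpq, one_pow]
  exact hu

end Fermat.Agent.S55.LocBridge57
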