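/-
S55 / 32c-SECOND-INEQ-INST, local bridge (helper57): the HENSEL BRIDGE between "`p`-th power
residue" conditions on a global field `K` and "`p`-th power in the local field" conditions, for a
ring homomorphism `j : K →+* PadicAlgCl q` with values in a finite extension `E` of `ℚ_[q]`
(model `LocField17.LF q`).  Purely normed statements (no choice of a model of the places of `K`);
`Dict.lean` translates them into `HeightOneSpectrum` valuations.

* `exists_pow_eq_of_norm_sub_pow_lt` (⇒, Hensel): `q ∤ p`, `‖j x‖ = 1`, `‖j (x - y ^ p)‖ < 1`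
  ⟹ `j x` is a `p`-th power in `E`;
* `exists_norm_sub_pow_lt_of_pow_eq` (⇐, density): `j K` dense in `E`, `‖j x‖ = 1`, `j x = z ^ p`
  in `E` ⟹ `∃ y : K, ‖j (x - y ^ p)‖ < 1`;
* `exists_pow_eq_of_norm_sub_one_lt'` : `‖j (x - 1)‖ < 1` ⟹ `j x ∈ Eᵖ` (`q ∤ p`);
* `exists_mul_pow_eq` : `j K` dense in `E` ⟹ `Kˣ → Eˣ / (Eˣ)ᵖ` is onto (ANY `q`, `p ≠ 0`).
-/
import Mathlib
import Fermat.Agent.S55.LocBridge57.OneUnits

set_option autoImplicit false

namespace Fermat.Agent.S55.LocBridge57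

open Fermat.Agent.S55.LocField17

variable {q : ℕ} [Fact q.Prime]

section Ultra

/-- ultrametric inequality in `PadicAlgCl q`. -/
theorem norm_add_le_max' (a b : PadicAlgCl q) : ‖a + b‖ ≤ max ‖a‖ ‖b‖ :=
  IsUltrametricDist.norm_add_le_max a b

/-- if `‖a - b‖ < ‖a‖` then `‖b‖ = ‖a‖`. -/
theorem norm_eq_of_norm_sub_lt {a b : PadicAlgCl q} (h : ‖a - b‖ < ‖a‖) : ‖b‖ = ‖a‖ := by
  apply le_antisymm
  · have h1 : b = a + -(a - b) := by ring
    rw [h1]
    refine (norm_add_le_max' _ _).trans ?_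
    rw [norm_neg]
    exact max_le le_rfl h.le
  · have h1 : a = b + (a - b) := by ring
    have h2 := norm_add_le_max' b (a - b)
    rw [← h1] at h2
    rcases le_max_iff.mp h2 with h3 | h3
    · exact h3
    · exact absurd h3 (not_le.mpr h)

/-- `‖a ^ n - b ^ n‖ ≤ ‖a - b‖` for `‖a‖, ‖b‖ ≤ 1`. -/
theorem norm_pow_sub_pow_le {a b : PadicAlgCl q} (ha : ‖a‖ ≤ 1) (hb : ‖b‖ ≤ 1) (n : ℕ) :
    ‖a ^ n - b ^ n‖ ≤ ‖a - b‖ := by
  rw [← Commute.geom_sum₂_mul (Commute.all a b) n, norm_mul]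
  have hsum : ‖∑ i ∈ Finset.range n, a ^ i * b ^ (n - 1 - i)‖ ≤ 1 := by
    apply IsUltrametricDist.norm_sum_le_of_forall_le_of_nonneg zero_le_one
    intro i _
    rw [norm_mul, norm_pow, norm_pow]
    exact mul_le_one₀ (pow_le_one₀ (norm_nonneg _) ha) (pow_nonneg (norm_nonneg _) _)
      (pow_le_one₀ (norm_nonneg _) hb)
  calc ‖∑ i ∈ Finset.range n, a ^ i * b ^ (n - 1 - i)‖ * ‖a - b‖ ≤ 1 * ‖a - b‖ :=
        mul_le_mul_of_nonneg_right hsum (norm_nonneg _)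
    _ = ‖a - b‖ := one_mul _

end Ultra

section Bridge

variable {K : Type*} [Field K] (j : K →+* PadicAlgCl q) (E : LF q) [FiniteDimensional ℚ_[q] E]
  (hjE : ∀ x, j x ∈ E)

include hjE

/-- **(T2 ⇒, Hensel)**: if `q ∤ p`, `x` is a unit at `j` and `x` is congruent to a `p`-th power
`y ^ p` of `K` modulo the maximal ideal, then `j x` is a `p`-th power in `E`. -/
theorem exists_pow_eq_of_norm_sub_pow_lt (p : ℕ) (hpq : ¬ q ∣ p) {x y : K}
    (hx : ‖j x‖ = 1) (hxy : ‖j (x - y ^ p)‖ < 1) :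
    ∃ z : E, (z : PadicAlgCl q) ^ p = j x := by
  have hp0 : p ≠ 0 := by
    rintro rfl
    exact hpq (dvd_zero q)
  -- `‖(j y) ^ p‖ = 1`
  have h1 : ‖j x - (j y) ^ p‖ < ‖j x‖ := by
    rw [hx, ← map_pow, ← map_sub]; exact hxy
  have hyp : ‖(j y) ^ p‖ = 1 := by rw [norm_eq_of_norm_sub_lt h1, hx]
  have hy0 : j y ≠ 0 := by
    intro h0
    rw [h0, zero_pow hp0, norm_zero] at hyp
    exact zero_ne_one hyp
  -- the `1`-unit `u = j x / (j y) ^ p`
  let u : E := ⟨j x, hjE x⟩ / ⟨j y, hjE y⟩ ^ p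
  have hu : ‖((u - 1 : E) : PadicAlgCl q)‖ < 1 := by
    have : ((u - 1 : E) : PadicAlgCl q) = (j x - (j y) ^ p) / (j y) ^ p := by
      show j x / (j y) ^ p - 1 = _
      field_simp
    rw [this, norm_div, hyp, div_one, ← map_pow, ← map_sub]
    exact hxy
  obtain ⟨z, hz, -⟩ := exists_pow_eq_of_one_unit E p hpq u hu
  refine ⟨z * ⟨j y, hjE y⟩, ?_⟩
  have hz' : (z : PadicAlgCl q) ^ p = j x / (j y) ^ p := by
    have := congrArg (fun t : E => (t : PadicAlgCl q)) hz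
    exact this
  show ((z : PadicAlgCl q) * j y) ^ p = j x
  rw [mul_pow, hz']
  field_simp

/-- `‖j (x - 1)‖ < 1` and `q ∤ p` ⟹ `j x` is a `p`-th power in `E` (so the map
`Kˣ / K_{v,1} → Eˣ / (Eˣ)ᵖ` is well defined). -/
theorem exists_pow_eq_of_norm_sub_one_lt' (p : ℕ) (hpq : ¬ q ∣ p) {x : K}
    (hx : ‖j (x - 1)‖ < 1) : ∃ z : E, (z : PadicAlgCl q) ^ p = j x := by
  have h1 : ‖j x - 1‖ < 1 := by rw [← map_one j, ← map_sub]; exact hx
  have hx1 : ‖j x‖ = 1 := by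
    have h2 : ‖(1 : PadicAlgCl q) - j x‖ < ‖(1 : PadicAlgCl q)‖ := by
      rw [norm_one, norm_sub_rev]; exact h1
    rw [norm_eq_of_norm_sub_lt h2, norm_one]
  exact exists_pow_eq_of_norm_sub_pow_lt j E hjE p hpq (y := 1) hx1 (by rw [one_pow]; exact hx)

variable (hdense : ∀ z : E, ∀ ε : ℝ, 0 < ε → ∃ y : K, ‖(z : PadicAlgCl q) - j y‖ < ε)

include hdense

omit [FiniteDimensional ℚ_[q] E] hjE in
/-- **(T2 ⇐, density)**: if `j K` is dense in `E`, a `j`-unit `x` of `K` whose image is a `p`-th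
power in `E` is congruent to a `p`-th power of `K` modulo the maximal ideal. -/
theorem exists_norm_sub_pow_lt_of_pow_eq (p : ℕ) (hp0 : p ≠ 0) {x : K} (hx : ‖j x‖ = 1)
    {z : E} (hz : (z : PadicAlgCl q) ^ p = j x) : ∃ y : K, ‖j (x - y ^ p)‖ < 1 := by
  have hz1 : ‖(z : PadicAlgCl q)‖ = 1 := by
    have h := congrArg norm hz
    rw [norm_pow, hx] at h
    exact (pow_eq_one_iff_of_nonneg (norm_nonneg _) hp0).mp h
  obtain ⟨y, hy⟩ := hdense z 1 one_pos
  have hy1 : ‖j y‖ = 1 := by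
    rw [norm_eq_of_norm_sub_lt (by rw [hz1]; exact hy), hz1]
  refine ⟨y, ?_⟩
  rw [map_sub, map_pow, ← hz]
  exact (norm_pow_sub_pow_le hz1.le hy1.le p).trans_lt hy

/-- **(T3, local weak approximation modulo `p`-th powers)**: if `j K` is dense in `E` then every
nonzero element of `E` is `j x` times a `p`-th power of `E`, for ANY residue characteristic. -/
theorem exists_mul_pow_eq (p : ℕ) (hp0 : p ≠ 0) {e : E} (he : e ≠ 0) :
    ∃ x : K, x ≠ 0 ∧ ∃ z : E, z ≠ 0 ∧ (e : PadicAlgCl q) = j x * (z : PadicAlgCl q) ^ p := by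
  have he' : (e : PadicAlgCl q) ≠ 0 := by
    intro h
    exact he (Subtype.ext h)
  have hepos : 0 < ‖(e : PadicAlgCl q)‖ := norm_pos_iff.mpr he'
  have hppos : 0 < ‖(p : PadicAlgCl q)‖ := norm_natCast_pos hp0
  have hp1 : ‖(p : PadicAlgCl q)‖ ≤ 1 := by
    rw [norm_natCast_padicAlgCl]; exact norm_natCast_padic_le_one p
  have hp21 : ‖(p : PadicAlgCl q)‖ ^ 2 ≤ 1 := pow_le_one₀ hppos.le hp1
  obtain ⟨x, hx⟩ := hdense e (‖(e : PadicAlgCl q)‖ * ‖(p : PadicAlgCl q)‖ ^ 2)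
    (mul_pos hepos (pow_pos hppos 2))
  have hlt : ‖(e : PadicAlgCl q) - j x‖ < ‖(e : PadicAlgCl q)‖ :=
    hx.trans_le (mul_le_of_le_one_right hepos.le hp21)
  have hjx : ‖j x‖ = ‖(e : PadicAlgCl q)‖ := norm_eq_of_norm_sub_lt hlt
  have hjx0 : j x ≠ 0 := by
    rw [← norm_pos_iff, hjx]; exact hepos
  have hx0 : x ≠ 0 := by
    rintro rfl
    exact hjx0 (map_zero j)
  let u : E := e / ⟨j x, hjE x⟩
  have hu : ‖((u - 1 : E) : PadicAlgCl q)‖ < ‖(p : PadicAlgCl q)‖ ^ 2 := by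
    have : ((u - 1 : E) : PadicAlgCl q) = ((e : PadicAlgCl q) - j x) / j x := by
      show (e : PadicAlgCl q) / j x - 1 = _
      field_simp
    rw [this, norm_div, hjx, div_lt_iff₀ hepos, mul_comm]
    exact hx
  obtain ⟨z, hz, hz1⟩ := exists_pow_eq_of_norm_sub_one_lt E p hp0 u hu
  have hz0 : z ≠ 0 := by
    rintro rfl
    simp at hz1
  refine ⟨x, hx0, z, hz0, ?_⟩
  have hz' : (z : PadicAlgCl q) ^ p = (e : PadicAlgCl q) / j x := by
    have := congrArg (fun t : E => (t : PadicAlgCl q)) hz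
    exact this
  rw [hz']
  field_simp

end Bridge

end Fermat.Agent.S55.LocBridge57
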