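/-
S55 / 32c-SECOND-INEQ-INST, local bridge (helper57): the Hensel bridge in the team vocabulary
`PlaceDict58` (`emb`, `nrm`, `placeOf`) × `ProfinLoc80.localLevel` × `LocField17.LF`.

For `F : IntermediateField ℚ ℚbar` finite over `ℚ`, `σ : F →ₐ[ℚ] ℚbar`, `q` prime:
* `locF q F σ : LF q` := `ℚ_q(ι σ F)`, finite over `ℚ_[q]`, `= adjoin ℚ_[q] (range (emb q F σ))`;
* `exists_norm_sub_emb_lt` : `emb q F σ '' F` is dense in `locF q F σ`;
* `exists_pow_eq_iff_isPowRes` : for `q ∤ p` and `x` a unit at `w = placeOf q F σ`: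
  `(∃ z ∈ locF, z ^ p = emb x) ↔ ∃ y : F, w.valuation F (x - y ^ p) < 1`
  (the right side is literally `AuxPrimes57.IsPowRes p w x`);
* `exists_pow_eq_of_valuation_sub_one_lt`, `exists_emb_mul_pow_eq`.
-/
import Mathlib
import Fermat.Agent.S55.LocBridge57.Hensel
import Fermat.Agent.S55.PlaceDict58
import Fermat.Agent.S55.ProfinLoc80.Decomp
import Fermat.Agent.S55.Idele73.Local

set_option autoImplicit false

namespace Fermat.Agent.S55.LocBridge57

open NumberField IsDedekindDomain Fermat.Agent.S55.LocField17 Fermat.Agent.S55.PlaceDict58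
  Fermat.Agent.S55.ProfinLoc80

variable (q : ℕ) [Fact q.Prime] (F : IntermediateField ℚ Qb) (σ : F →ₐ[ℚ] Qb)

/-- the local field `ℚ_q(ι σ F) ⊆ PadicAlgCl q` attached to the embedding `σ` of `F`. -/
noncomputable def locF : LF q := localLevel q σ.fieldRange

theorem emb_mem_locF (x : F) : emb q F σ x ∈ locF q F σ :=
  padicEmbedding_mem_localLevel q σ.fieldRange ⟨σ x, AlgHom.mem_fieldRange.mpr ⟨x, rfl⟩⟩

theorem range_emb : Set.range (emb q F σ) =
    padicEmbedding q '' (σ.fieldRange : Set Qb) := by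
  ext y
  constructor
  · rintro ⟨x, rfl⟩
    exact ⟨σ x, AlgHom.mem_fieldRange.mpr ⟨x, rfl⟩, rfl⟩
  · rintro ⟨_, hx, rfl⟩
    obtain ⟨x, rfl⟩ := AlgHom.mem_fieldRange.mp hx
    exact ⟨x, rfl⟩

theorem locF_eq_adjoin :
    locF q F σ = IntermediateField.adjoin ℚ_[q] (Set.range (emb q F σ)) := by
  rw [range_emb]
  rfl

instance finiteDimensional_fieldRange [FiniteDimensional ℚ F] :
    FiniteDimensional ℚ σ.fieldRange :=
  LinearEquiv.finiteDimensional (AlgEquiv.ofInjectiveField σ).toLinearEquiv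

instance finiteDimensional_locF [FiniteDimensional ℚ F] :
    FiniteDimensional ℚ_[q] (locF q F σ) :=
  Idele73.Local.finiteDimensional_Elev q σ.fieldRange

/-- density of `emb q F σ '' F` in `locF q F σ`. -/
theorem exists_norm_sub_emb_lt (z : locF q F σ) (ε : ℝ) (hε : 0 < ε) :
    ∃ y : F, ‖(z : PadicAlgCl q) - emb q F σ y‖ < ε := by
  obtain ⟨x, hx⟩ := exists_norm_sub_lt q σ.fieldRange z.2 hε
  obtain ⟨y, hy⟩ := AlgHom.mem_fieldRange.mp x.2
  refine ⟨y, ?_⟩
  rw [emb_apply, hy]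
  exact hx

section Place

variable [NumberField F]

theorem norm_emb_lt_one_iff (x : F) :
    ‖emb q F σ x‖ < 1 ↔ (placeOf q F σ).valuation F x < 1 := by
  rw [← nrm_def]; exact nrm_lt_one_iff q F σ x

theorem norm_emb_eq_one_iff (x : F) :
    ‖emb q F σ x‖ = 1 ↔ (placeOf q F σ).valuation F x = 1 := by
  rw [← nrm_def]; exact nrm_eq_one_iff q F σ x

/-- **Hensel bridge (⇒)**: a `p`-th power residue unit at `placeOf q F σ`, `q ∤ p`, becomes a
`p`-th power in `locF q F σ`. -/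
theorem exists_pow_eq_of_isPowRes [FiniteDimensional ℚ F] (p : ℕ) (hpq : ¬ q ∣ p) {x : F}
    (hx : (placeOf q F σ).valuation F x = 1)
    (hres : ∃ y : F, (placeOf q F σ).valuation F (x - y ^ p) < 1) :
    ∃ z : locF q F σ, (z : PadicAlgCl q) ^ p = emb q F σ x := by
  obtain ⟨y, hy⟩ := hres
  exact exists_pow_eq_of_norm_sub_pow_lt (emb q F σ) (locF q F σ) (emb_mem_locF q F σ) p hpq
    ((norm_emb_eq_one_iff q F σ x).mpr hx) ((norm_emb_lt_one_iff q F σ _).mpr hy)

/-- **Hensel bridge (⇐)**: a unit at `placeOf q F σ` which is a `p`-th power in `locF q F σ` is a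
`p`-th power residue. -/
theorem isPowRes_of_exists_pow_eq (p : ℕ) (hp0 : p ≠ 0) {x : F}
    (hx : (placeOf q F σ).valuation F x = 1)
    (hz : ∃ z : locF q F σ, (z : PadicAlgCl q) ^ p = emb q F σ x) :
    ∃ y : F, (placeOf q F σ).valuation F (x - y ^ p) < 1 := by
  obtain ⟨z, hz⟩ := hz
  obtain ⟨y, hy⟩ := exists_norm_sub_pow_lt_of_pow_eq (emb q F σ) (locF q F σ)
    (exists_norm_sub_emb_lt q F σ) p hp0 ((norm_emb_eq_one_iff q F σ x).mpr hx) hz
  exact ⟨y, (norm_emb_lt_one_iff q F σ _).mp hy⟩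

/-- **Hensel bridge**: for `q ∤ p` and `x` a unit at `w = placeOf q F σ`: `emb x` is a `p`-th
power in the local field iff `x` is a `p`-th power residue modulo `w`
(`= AuxPrimes57.IsPowRes p w x`, by `Iff.rfl`). -/
theorem exists_pow_eq_iff_isPowRes [FiniteDimensional ℚ F] (p : ℕ) (hpq : ¬ q ∣ p) {x : F}
    (hx : (placeOf q F σ).valuation F x = 1) :
    (∃ z : locF q F σ, (z : PadicAlgCl q) ^ p = emb q F σ x) ↔
      ∃ y : F, (placeOf q F σ).valuation F (x - y ^ p) < 1 := by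
  have hp0 : p ≠ 0 := by
    rintro rfl
    exact hpq (dvd_zero q)
  exact ⟨isPowRes_of_exists_pow_eq q F σ p hp0 hx, exists_pow_eq_of_isPowRes q F σ p hpq hx⟩

/-- elements of `K_{v,1} = {x | v(x - 1) < 1}` become `p`-th powers in the local field
(`q ∤ p`). -/
theorem exists_pow_eq_of_valuation_sub_one_lt [FiniteDimensional ℚ F] (p : ℕ) (hpq : ¬ q ∣ p)
    {x : F} (hx : (placeOf q F σ).valuation F (x - 1) < 1) :
    ∃ z : locF q F σ, (z : PadicAlgCl q) ^ p = emb q F σ x :=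
  exists_pow_eq_of_norm_sub_one_lt' (emb q F σ) (locF q F σ) (emb_mem_locF q F σ) p hpq
    ((norm_emb_lt_one_iff q F σ _).mpr hx)

end Place

/-- `Fˣ → locFˣ / (locFˣ)ᵖ` is onto, for every `q` (including `q = p`). -/
theorem exists_emb_mul_pow_eq [FiniteDimensional ℚ F] (p : ℕ) (hp0 : p ≠ 0) {e : locF q F σ}
    (he : e ≠ 0) :
    ∃ x : F, x ≠ 0 ∧ ∃ z : locF q F σ, z ≠ 0 ∧
      (e : PadicAlgCl q) = emb q F σ x * (z : PadicAlgCl q) ^ p :=
  exists_mul_pow_eq (emb q F σ) (locF q F σ) (emb_mem_locF q F σ)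
    (exists_norm_sub_emb_lt q F σ) p hp0 he

end Fermat.Agent.S55.LocBridge57
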